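import Fermat.Agent.RankinCohen.Slash

/-!
# Brackets of modular forms are cusp forms

By Cauchy's estimate the derivatives of a function bounded at `i∞` tend to zero there, so for
`n ≥ 1` every term of the bracket does.
-/

set_option autoImplicit false

noncomputable section

open UpperHalfPlane hiding I
open Complex Finset Derivative
open scoped Manifold MatrixGroups ModularForm Topology

namespace FA.RankinCohen

/-- Cauchy's estimate at `i∞`. -/
theorem isZero_normalizedDeriv {F : ℍ → ℂ} (hF : MDiff F) (hb : IsBoundedAtImInfty F) :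
    IsZeroAtImInfty (normalizedDerivOfComplex F) := by
  obtain ⟨M, A, hM⟩ := isBoundedAtImInfty_iff.1 hb
  rw [isZeroAtImInfty_iff]
  intro ε hε
  obtain ⟨R, hR, hRε⟩ : ∃ R : ℝ, 0 < R ∧ |M| / (2 * Real.pi * ε) ≤ R :=
    ⟨|M| / (2 * Real.pi * ε) + 1, by positivity, le_add_of_nonneg_right zero_le_one⟩
  refine ⟨max A 0 + R + 1, fun z hz => ?_⟩
  have hball : ∀ w ∈ Metric.closedBall (z : ℂ) R, max A 0 + 1 ≤ w.im := fun w hw => by
    have h := (abs_le.1 ((Complex.abs_im_le_norm (w - z)).trans (mem_closedBall_iff_norm.1 hw))).1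
    rw [Complex.sub_im] at h
    have : z.im = (z : ℂ).im := rfl
    linarith
  have hd : DiffContOnCl ℂ (F ∘ ofComplex) (Metric.ball (z : ℂ) R) := by
    refine DifferentiableOn.diffContOnCl ?_
    rw [closure_ball _ hR.ne']
    exact (UpperHalfPlane.mdifferentiable_iff.1 hF).mono fun w hw =>
      lt_of_lt_of_le (by positivity) (hball w hw)
  have hC : ∀ w ∈ Metric.sphere (z : ℂ) R, ‖(F ∘ ofComplex) w‖ ≤ |M| := fun w hw => by
    have h := hball w (Metric.sphere_subset_closedBall hw)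
    rw [Function.comp_apply, ofComplex_apply_of_im_pos (lt_of_lt_of_le (by positivity) h)]
    exact (hM ⟨w, lt_of_lt_of_le (by positivity) h⟩
      ((le_max_left A 0).trans ((le_add_of_nonneg_right zero_le_one).trans h))).trans
        (le_abs_self M)
  have h := Complex.norm_deriv_le_of_forall_mem_sphere_norm_le hR hd hC
  rw [normalizedDerivOfComplex, norm_mul, norm_inv, norm_mul, norm_mul, Complex.norm_ofNat,
    Complex.norm_real, Real.norm_of_nonneg Real.pi_pos.le, Complex.norm_I, mul_one,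
    inv_mul_le_iff₀ (by positivity)]
  refine h.trans ?_
  rw [div_le_iff₀ (by positivity)] at hRε
  rw [div_le_iff₀ hR]
  linarith

theorem isBounded_iterD {F : ℍ → ℂ} (hF : MDiff F) (hb : IsBoundedAtImInfty F) :
    ∀ r, IsBoundedAtImInfty (iterD r F) ∧ (r ≠ 0 → IsZeroAtImInfty (iterD r F))
  | 0 => ⟨hb, fun h => absurd rfl h⟩
  | r + 1 => by
    have h := isZero_normalizedDeriv (mdiff_iterD hF r) (isBounded_iterD hF hb r).1
    rw [← iterD_succ] at h
    exact ⟨h.isBoundedAtImInfty, fun _ => h⟩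

theorem isZero_bracket {k l n : ℕ} (hn : n ≠ 0) {F G : ℍ → ℂ} (hF : MDiff F) (hG : MDiff G)
    (hFb : IsBoundedAtImInfty F) (hGb : IsBoundedAtImInfty G) :
    IsZeroAtImInfty (bracket k l n F G) := by
  have key : ∀ p ∈ antidiagonal n, Filter.Tendsto (fun z => iterD p.1 F z * iterD p.2 G z)
      atImInfty (𝓝 0) := fun p hp => by
    have hpn := mem_antidiagonal.1 hp
    rcases eq_or_ne p.1 0 with h | h
    · simpa only [mul_comm] using
        ((isBounded_iterD hG hGb p.2).2 (by omega)).zero_mul_isBoundedUnder_le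
        (Asymptotics.IsBigO.isBoundedUnder_le (isBounded_iterD hF hFb p.1).1)
    · exact ((isBounded_iterD hF hFb p.1).2 h).zero_mul_isBoundedUnder_le
        (Asymptotics.IsBigO.isBoundedUnder_le (isBounded_iterD hG hGb p.2).1)
  show Filter.Tendsto (bracket k l n F G) atImInfty (𝓝 0)
  unfold bracket
  simpa using tendsto_finsetSum (antidiagonal n) fun p hp =>
    (key p hp).const_mul ((-1 : ℂ) ^ p.1 *
      (((n + k - 1).choose p.2 * (n + l - 1).choose p.1 : ℕ) : ℂ))

theorem mdiff_bracket {k l n : ℕ} {F G : ℍ → ℂ} (hF : MDiff F) (hG : MDiff G) :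
    MDiff (bracket k l n F G) := by
  rw [show bracket k l n F G = ∑ p ∈ antidiagonal n, (fun _ => (-1 : ℂ) ^ p.1 *
      (((n + k - 1).choose p.2 * (n + l - 1).choose p.1 : ℕ) : ℂ)) *
        (iterD p.1 F * iterD p.2 G) from funext fun z => by simp [bracket, Finset.sum_apply]]
  exact MDifferentiable.sum fun p _ =>
    mdifferentiable_const.mul ((mdiff_iterD hF p.1).mul (mdiff_iterD hG p.2))

/-- **The bracket of two modular forms**, `n ≥ 1`, as a cusp form. -/
theorem exists_cuspForm {Γ : Subgroup (GL (Fin 2) ℝ)} [Γ.IsArithmetic] [Γ.HasDetOne] {k l n : ℕ}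
    (hk : k ≠ 0) (hl : l ≠ 0) (hn : n ≠ 0) (f : ModularForm Γ (k : ℤ)) (g : ModularForm Γ (l : ℤ)) :
    ∃ h : CuspForm Γ ((k + l + 2 * n : ℕ) : ℤ), ⇑h = bracket k l n f g := by
  obtain ⟨k, rfl⟩ := Nat.exists_eq_succ_of_ne_zero hk
  obtain ⟨l, rfl⟩ := Nat.exists_eq_succ_of_ne_zero hl
  refine ⟨{ toFun := bracket (k + 1) (l + 1) n f g
            slash_action_eq' := fun γ hγ => ?_
            holo' := mdiff_bracket f.holo' g.holo'
            zero_at_cusps' := fun {c} hc => ?_ }, rfl⟩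
  · show bracket (k + 1) (l + 1) n f g ∣[((k + 1 + (l + 1) + 2 * n : ℕ) : ℤ)] γ = _
    rw [bracket_slash k l n (F := ⇑f) (G := ⇑g) (Subgroup.HasDetOne.det_eq hγ) f.holo' g.holo']
    congr 1
    · exact f.slash_action_eq' γ hγ
    · exact g.slash_action_eq' γ hγ
  · have hf := f.bdd_at_cusps' hc
    have hg := g.bdd_at_cusps' hc
    rw [Subgroup.IsArithmetic.isCusp_iff_isCusp_SL2Z] at hc
    rw [OnePoint.isZeroAt_iff_forall_SL2Z hc]
    rw [OnePoint.isBoundedAt_iff_forall_SL2Z hc] at hf hg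
    intro γ hγ
    have hdet : (Matrix.SpecialLinearGroup.mapGL ℝ γ).det = 1 := by simp
    rw [ModularForm.SL_slash]
    show IsZeroAtImInfty (bracket (k + 1) (l + 1) n f g ∣[((k + 1 + (l + 1) + 2 * n : ℕ) : ℤ)]
      Matrix.SpecialLinearGroup.mapGL ℝ γ)
    rw [bracket_slash k l n (F := ⇑f) (G := ⇑g) hdet f.holo' g.holo']
    exact isZero_bracket hn (f.holo'.slash _ _) (g.holo'.slash _ _) (hf γ hγ) (hg γ hγ)

end FA.RankinCohen

end
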