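import Fermat.Agent.RankinCohen.Cusp
import Fermat.Agent.Tau.QuasiModular

/-!
# Brackets of Eisenstein series and van der Pol's formula

`[E₄, E₆]₁ = -3456 Δ` and `[E₄, E₄]₂ = 4800 Δ` follow from Ramanujan's identities; comparing
coefficients in the second gives `τ(n)` through convolutions of `σ₃`.
-/

set_option autoImplicit false

noncomputable section

open UpperHalfPlane hiding I
open ModularForm EisensteinSeries Derivative FA.Eis FA.Tau
open scoped ArithmeticFunction.sigma

namespace FA.RankinCohen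

theorem series_bracket_one :
    4 * (eFourInt * thetaInt eSixInt) - 6 * (thetaInt eFourInt * eSixInt) = -3456 * deltaInt := by
  linear_combination 2 * eFourInt * theta_eSix - 2 * eSixInt * theta_eFour + 2 * delta_eq

theorem series_bracket_two :
    20 * (thetaInt (thetaInt eFourInt) * eFourInt) - 25 * (thetaInt eFourInt * thetaInt eFourInt) =
      4800 * deltaInt := by
  have h4 := theta_eFour
  have h4' := congrArg thetaDer h4
  rw [map_sub, show (3 : PowerSeries ℤ) * thetaInt eFourInt = (3 : ℕ) • thetaInt eFourInt by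
    rw [nsmul_eq_mul, Nat.cast_ofNat], map_nsmul, Derivation.leibniz, nsmul_eq_mul,
    Nat.cast_ofNat] at h4'
  simp only [smul_eq_mul, thetaDer_apply] at h4'
  refine mul_left_cancel₀ (natCast_series_ne_zero (k := 36) (by norm_num)) ?_
  push_cast
  linear_combination 240 * eFourInt * h4' + 20 * eFourInt ^ 2 * theta_eTwo -
    120 * eFourInt * theta_eSix + 80 * eTwoInt * eFourInt * h4 -
    100 * (3 * thetaInt eFourInt + (eTwoInt * eFourInt - eSixInt)) * h4 - 100 * delta_eq

theorem bracket_eFour_eSix (z : ℍ) :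
    bracket 4 6 1 E₄ E₆ z = -3456 * ModularForm.discriminant z := by
  have h := ((hasQ_eFour.mul one_pos (hasQ_deriv hasQ_eSix)).smul (4 : ℂ)).sub
    (((hasQ_deriv hasQ_eFour).mul one_pos hasQ_eSix).smul (6 : ℂ))
  have hr := hasQ_discriminant.smul (-3456 : ℂ)
  have key := congrArg (PowerSeries.map (Int.castRingHom ℂ)) series_bracket_one
  simp only [map_mul, map_sub, map_neg, map_ofNat] at key
  simp only [PowerSeries.smul_eq_C_mul, map_ofNat, map_neg, key] at h hr
  have e := (h z).unique (hr z)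
  simp only [Pi.smul_apply, Pi.sub_apply, Pi.mul_apply, smul_eq_mul] at e
  rw [bracket, Finset.Nat.sum_antidiagonal_succ, Finset.Nat.antidiagonal_zero,
    Finset.sum_singleton]
  simp [iterD]
  linear_combination e

theorem bracket_eFour_eFour (z : ℍ) :
    bracket 4 4 2 E₄ E₄ z = 4800 * ModularForm.discriminant z := by
  have h1 := hasQ_deriv hasQ_eFour
  have h2 := hasQ_deriv h1
  have h := ((h2.mul one_pos hasQ_eFour).smul (20 : ℂ)).sub ((h1.mul one_pos h1).smul (25 : ℂ))
  have hr := hasQ_discriminant.smul (4800 : ℂ)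
  have key := congrArg (PowerSeries.map (Int.castRingHom ℂ)) series_bracket_two
  simp only [map_mul, map_sub, map_ofNat] at key
  simp only [PowerSeries.smul_eq_C_mul, map_ofNat, key] at h hr
  have e := (h z).unique (hr z)
  simp only [Pi.smul_apply, Pi.sub_apply, Pi.mul_apply, smul_eq_mul] at e
  rw [bracket, Finset.Nat.sum_antidiagonal_succ, Finset.Nat.sum_antidiagonal_succ,
    Finset.Nat.antidiagonal_zero, Finset.sum_singleton]
  simp [iterD, Nat.choose]
  linear_combination e

/-- **Van der Pol's formula.** -/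
theorem coeff_delta_eq (n : ℕ) :
    PowerSeries.coeff n deltaInt = (n : ℤ) ^ 2 * (σ 3 n : ℤ) +
      60 * ∑ i ∈ Finset.range n,
        (i : ℤ) * (9 * (i : ℤ) - 5 * n) * ((σ 3 i : ℤ) * (σ 3 (n - i) : ℤ)) := by
  have h := congrArg (PowerSeries.coeff n) series_bracket_two
  rw [show (20 : PowerSeries ℤ) = PowerSeries.C (20 : ℤ) by simp,
    show (25 : PowerSeries ℤ) = PowerSeries.C (25 : ℤ) by simp,
    show (4800 : PowerSeries ℤ) = PowerSeries.C (4800 : ℤ) by simp, map_sub,
    PowerSeries.coeff_C_mul, PowerSeries.coeff_C_mul, PowerSeries.coeff_C_mul,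
    PowerSeries.coeff_mul, PowerSeries.coeff_mul, Finset.mul_sum, Finset.mul_sum,
    ← Finset.sum_sub_distrib, Finset.Nat.sum_antidiagonal_eq_sum_range_succ_mk,
    Finset.sum_range_succ] at h
  have hi : ∀ i : ℕ, (i : ℤ) * PowerSeries.coeff i eFourInt = (i : ℤ) * (240 * (σ 3 i : ℤ)) :=
    fun i => by
      rcases eq_or_ne i 0 with rfl | h0
      · simp
      · simp [eFourInt, h0]
  have h0 : PowerSeries.coeff 0 eFourInt = 1 := by simp [eFourInt]
  have hsum : ∀ i ∈ Finset.range n,
      20 * (PowerSeries.coeff i (thetaInt (thetaInt eFourInt)) *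
          PowerSeries.coeff (n - i) eFourInt) -
        25 * (PowerSeries.coeff i (thetaInt eFourInt) *
          PowerSeries.coeff (n - i) (thetaInt eFourInt)) =
      57600 * ((i : ℤ) * (20 * i - 25 * ((n : ℤ) - i)) * ((σ 3 i : ℤ) * (σ 3 (n - i) : ℤ))) :=
    fun i hin => by
      have hlt := Finset.mem_range.1 hin
      simp only [thetaInt, PowerSeries.coeff_mk, hi i, hi (n - i)]
      rw [Nat.cast_sub hlt.le, show PowerSeries.coeff (n - i) eFourInt = 240 * (σ 3 (n - i) : ℤ) by
        simp [eFourInt, Nat.sub_ne_zero_of_lt hlt]]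
      ring
  rw [Finset.sum_congr rfl hsum, ← Finset.mul_sum, Nat.sub_self] at h
  simp only [thetaInt, PowerSeries.coeff_mk, hi n, h0, Nat.cast_zero, mul_zero, mul_one,
    sub_zero] at h
  have hc : ∑ i ∈ Finset.range n,
      (i : ℤ) * (20 * i - 25 * ((n : ℤ) - i)) * ((σ 3 i : ℤ) * (σ 3 (n - i) : ℤ)) =
      5 * ∑ i ∈ Finset.range n,
        (i : ℤ) * (9 * (i : ℤ) - 5 * n) * ((σ 3 i : ℤ) * (σ 3 (n - i) : ℤ)) := by
    rw [Finset.mul_sum]
    exact Finset.sum_congr rfl fun i _ => by ring
  rw [hc] at h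
  linarith

end FA.RankinCohen

end
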