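import Mathlib

/-!
# Rankin–Cohen brackets commute with the slash action

The series `∑ D^r F X^r / (r! (k - 1 + r)!)` picks up the factor `exp (u X)` under a slash of
determinant one, and the bracket is a coefficient of such a series at `-X` times another one.
-/

set_option autoImplicit false

noncomputable section

open UpperHalfPlane hiding I
open Complex Finset Derivative
open scoped Manifold MatrixGroups ModularForm Nat Topology

namespace FA.RankinCohen

/-- The iterated derivative `((2πi)⁻¹ d/dz)^r`. -/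
def iterD (r : ℕ) (F : ℍ → ℂ) : ℍ → ℂ := normalizedDerivOfComplex^[r] F

theorem iterD_succ (r : ℕ) (F : ℍ → ℂ) :
    iterD (r + 1) F = normalizedDerivOfComplex (iterD r F) := by
  rw [iterD, iterD, Function.iterate_succ_apply']

theorem mdiff_iterD {F : ℍ → ℂ} (hF : MDiff F) : ∀ r, MDiff (iterD r F)
  | 0 => hF
  | r + 1 => by
    rw [iterD_succ]
    exact normalizedDerivOfComplex_mdifferentiable (mdiff_iterD hF r)

/-- The Rankin–Cohen bracket of `F` and `G` of weights `k` and `l`. -/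
def bracket (k l n : ℕ) (F G : ℍ → ℂ) : ℍ → ℂ := fun z =>
  ∑ p ∈ antidiagonal n, (-1) ^ p.1 *
    (((n + k - 1).choose p.2 * (n + l - 1).choose p.1 : ℕ) : ℂ) *
      (iterD p.1 F z * iterD p.2 G z)

theorem slash_one_det {g : GL (Fin 2) ℝ} (hg : g.det = 1) (m : ℤ) (F : ℍ → ℂ) (z : ℍ) :
    (F ∣[m] g) z = F (g • z) * denom g z ^ (-m) := by
  have h : g.det.val = 1 := by rw [hg]; rfl
  rw [ModularForm.slash_apply, h]
  simp [σ, h]

/-- `c / (2πi (c z + d))`. -/
def factor (g : GL (Fin 2) ℝ) (z : ℍ) : ℂ := (2 * Real.pi * I)⁻¹ * (g 1 0 : ℂ) / denom g z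

theorem hasDerivAt_factor_pow (g : GL (Fin 2) ℝ) (m : ℕ) (z : ℍ) :
    HasDerivAt (fun w : ℂ => ((2 * Real.pi * I)⁻¹ * (g 1 0 : ℂ) / denom g w) ^ m)
      (-(m : ℂ) * (2 * Real.pi * I) * factor g z ^ (m + 1)) z := by
  obtain ⟨c, hc⟩ : ∃ c : ℂ, c = (2 * Real.pi * I)⁻¹ * (g 1 0 : ℂ) := ⟨_, rfl⟩
  have h := (hasDerivAt_denom_zpow g (-(m : ℤ)) z).const_mul (c ^ m)
  refine (h.congr_of_eventuallyEq (Filter.Eventually.of_forall fun w => ?_)).congr_deriv ?_
  · simp only [zpow_neg, zpow_natCast, ← hc, div_eq_mul_inv, mul_pow, inv_pow]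
  · have hz := denom_ne_zero g z
    have h2 : (2 * Real.pi * I : ℂ) ≠ 0 := by simp [Real.pi_ne_zero, I_ne_zero]
    have hg10 : (g 1 0 : ℂ) = c * (2 * Real.pi * I) := by
      rw [hc]
      field_simp
    rw [factor, ← hc, hg10, show -(m : ℤ) - 1 = -((m + 1 : ℕ) : ℤ) by push_cast; ring, zpow_neg,
      zpow_natCast, Int.cast_neg, Int.cast_natCast, div_pow, pow_succ c]
    field_simp

theorem deriv_normalized {F : ℍ → ℂ} (hF : MDiff F) (z : ℍ) :
    HasDerivAt (F ∘ ofComplex) ((2 * Real.pi * I) * normalizedDerivOfComplex F z) z := by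
  have h2 : (2 * Real.pi * I : ℂ) ≠ 0 := by simp [Real.pi_ne_zero, I_ne_zero]
  refine (mdifferentiableAt_iff.mp (hF z)).hasDerivAt.congr_deriv ?_
  rw [normalizedDerivOfComplex, ← mul_assoc, mul_inv_cancel₀ h2, one_mul]

/-- **The transformation of the iterated derivatives.** -/
theorem iterD_slash (k : ℕ) {g : GL (Fin 2) ℝ} (hg : g.det = 1) {F : ℍ → ℂ} (hF : MDiff F) :
    ∀ (n : ℕ) (z : ℍ),
      (iterD n F ∣[((k + 1 + 2 * n : ℕ) : ℤ)] g) z = ((n ! * (k + n)! : ℕ) : ℂ) *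
        ∑ p ∈ antidiagonal n, factor g z ^ p.1 / (p.1 ! : ℂ) *
          (iterD p.2 (F ∣[((k + 1 : ℕ) : ℤ)] g) z / ((p.2 ! * (k + p.2)! : ℕ) : ℂ)) := by
  have hdet : g.val.det = 1 := by
    rw [← Matrix.GeneralLinearGroup.val_det_apply, hg]; rfl
  have h2 : (2 * Real.pi * I : ℂ) ≠ 0 := by simp [Real.pi_ne_zero, I_ne_zero]
  intro n
  induction n with
  | zero =>
    intro z
    simp [iterD, div_eq_mul_inv]
    field_simp
    rw [mul_div_assoc, div_self (Nat.cast_ne_zero.2 k.factorial_ne_zero), mul_one]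
  | succ n ih =>
    intro z
    obtain ⟨u, hu⟩ : ∃ u, u = factor g z := ⟨_, rfl⟩
    obtain ⟨t, ht⟩ : ∃ t : ℕ → ℂ, t = fun r =>
        iterD r (F ∣[((k + 1 : ℕ) : ℤ)] g) z / ((r ! * (k + r)! : ℕ) : ℂ) := ⟨_, rfl⟩
    have hGm : MDiff (F ∣[((k + 1 : ℕ) : ℤ)] g) := hF.slash _ g
    -- differentiate the induction hypothesis
    have hD : normalizedDerivOfComplex (iterD n F ∣[((k + 1 + 2 * n : ℕ) : ℤ)] g) z =
        ((n ! * (k + n)! : ℕ) : ℂ) * ∑ p ∈ antidiagonal n,
          (-(p.1 : ℂ) * (u ^ (p.1 + 1) / (p.1 ! : ℂ)) * t p.2 +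
            u ^ p.1 / (p.1 ! : ℂ) * ((p.2 + 1 : ℕ) * (k + (p.2 + 1) : ℕ) * t (p.2 + 1))) := by
      have hd : HasDerivAt ((iterD n F ∣[((k + 1 + 2 * n : ℕ) : ℤ)] g) ∘ ofComplex)
          (((n ! * (k + n)! : ℕ) : ℂ) * ∑ p ∈ antidiagonal n,
            (-(p.1 : ℂ) * (2 * Real.pi * I) * u ^ (p.1 + 1) / (p.1 ! : ℂ) *
              (iterD p.2 (F ∣[((k + 1 : ℕ) : ℤ)] g) z / ((p.2 ! * (k + p.2)! : ℕ) : ℂ)) +
            u ^ p.1 / (p.1 ! : ℂ) * ((2 * Real.pi * I) *
              iterD (p.2 + 1) (F ∣[((k + 1 : ℕ) : ℤ)] g) z /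
                ((p.2 ! * (k + p.2)! : ℕ) : ℂ)))) z := by
        have hsum := (HasDerivAt.fun_sum (u := antidiagonal n) fun p _ =>
          ((hasDerivAt_factor_pow g p.1 z).div_const (p.1 ! : ℂ)).fun_mul
            ((deriv_normalized (mdiff_iterD hGm p.2) z).div_const
              ((p.2 ! * (k + p.2)! : ℕ) : ℂ))).const_mul ((n ! * (k + n)! : ℕ) : ℂ)
        refine (hsum.congr_of_eventuallyEq ?_).congr_deriv ?_
        · filter_upwards [isOpen_upperHalfPlaneSet.mem_nhds z.im_pos] with w hw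
          simp only [Function.comp_apply, ofComplex_apply_of_im_pos hw]
          rw [ih]
          rfl
        · simp only [Function.comp_apply, ofComplex_apply, iterD_succ, ← hu]
          simp only [← factor.eq_1, hu]
      rw [normalizedDerivOfComplex, hd.deriv, mul_left_comm, mul_sum]
      congr 1
      refine sum_congr rfl fun p _ => ?_
      simp only [ht, Nat.factorial_succ, ← add_assoc k p.2 1]
      have := Nat.factorial_ne_zero p.1
      have := Nat.factorial_ne_zero p.2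
      have := Nat.factorial_ne_zero (k + p.2)
      have : (k : ℂ) + p.2 + 1 ≠ 0 := by exact_mod_cast Nat.succ_ne_zero (k + p.2)
      push_cast
      field_simp
    -- the slash of the next derivative
    have hS := congrFun (normalizedDerivOfComplex_slash (k := ((k + 1 + 2 * n : ℕ) : ℤ))
      (mdiff_iterD hF n) (g := g) (by rw [hdet]; exact one_pos)) z
    rw [hdet, ← iterD_succ, ofReal_one, inv_one, one_mul,
      show ((k + 1 + 2 * n : ℕ) : ℤ) + 2 = ((k + 1 + 2 * (n + 1) : ℕ) : ℤ) by push_cast; ring,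
      hD, mul_assoc _ (2 * Real.pi * I : ℂ)⁻¹, ← mul_div_assoc (2 * Real.pi * I : ℂ)⁻¹,
      show (2 * Real.pi * I : ℂ)⁻¹ * (g 1 0 : ℂ) / denom g z = u from hu.symm, ih, ← hu] at hS
    rw [eq_add_of_sub_eq hS.symm]
    have hshift1 : ∑ p ∈ antidiagonal (n + 1),
        (p.1 : ℂ) * ((k : ℂ) + 2 * n + 2 - p.1) * (u ^ p.1 / (p.1 ! : ℂ) * t p.2) =
        ∑ p ∈ antidiagonal n,
          ((k : ℂ) + 2 * n + 1 - p.1) * (u ^ (p.1 + 1) / (p.1 ! : ℂ) * t p.2) := by
      rw [Finset.Nat.sum_antidiagonal_succ]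
      simp only [Nat.cast_zero, zero_mul, zero_add]
      refine sum_congr rfl fun p _ => ?_
      have := Nat.factorial_ne_zero p.1
      rw [Nat.factorial_succ]
      push_cast
      field_simp
      ring
    have hshift2 : ∑ p ∈ antidiagonal (n + 1),
        ((p.2 * (k + p.2) : ℕ) : ℂ) * (u ^ p.1 / (p.1 ! : ℂ) * t p.2) =
        ∑ p ∈ antidiagonal n, u ^ p.1 / (p.1 ! : ℂ) *
          ((p.2 + 1 : ℕ) * (k + (p.2 + 1) : ℕ) * t (p.2 + 1)) := by
      rw [Finset.Nat.sum_antidiagonal_succ']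
      simp only [Nat.cast_zero, zero_mul, zero_add]
      exact sum_congr rfl fun p _ => by push_cast; ring
    have htot : (((n + 1) * (k + n + 1) : ℕ) : ℂ) *
        ∑ p ∈ antidiagonal (n + 1), u ^ p.1 / (p.1 ! : ℂ) * t p.2 =
        ∑ p ∈ antidiagonal n, ((k : ℂ) + 2 * n + 1 - p.1) * (u ^ (p.1 + 1) / (p.1 ! : ℂ) * t p.2) +
          ∑ p ∈ antidiagonal n, u ^ p.1 / (p.1 ! : ℂ) *
            ((p.2 + 1 : ℕ) * (k + (p.2 + 1) : ℕ) * t (p.2 + 1)) := by
      rw [← hshift1, ← hshift2, ← sum_add_distrib, mul_sum]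
      refine sum_congr rfl fun p hp => ?_
      have hp' : (p.1 : ℂ) + p.2 = n + 1 := by
        exact_mod_cast congrArg (Nat.cast (R := ℂ)) (mem_antidiagonal.1 hp)
      push_cast
      linear_combination (-(u ^ p.1 / (p.1 ! : ℂ) * t p.2) * ((n : ℂ) + 1 - p.1 + p.2 + k)) * hp'
    simp only [ht] at htot ⊢
    rw [← hu, show (((n + 1)! * (k + (n + 1))! : ℕ) : ℂ) =
      ((n ! * (k + n)! : ℕ) : ℂ) * (((n + 1) * (k + n + 1) : ℕ) : ℂ) by
        rw [Nat.factorial_succ, ← add_assoc, Nat.factorial_succ]; push_cast; ring,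
      mul_assoc ((n ! * (k + n)! : ℕ) : ℂ), htot, Int.cast_natCast]
    simp only [mul_add, mul_sum, ← sum_add_distrib]
    exact sum_congr rfl fun p _ => by push_cast; ring

/-- The generating series of the derivatives at a point. -/
def series (k : ℕ) (a : ℕ → ℂ) : PowerSeries ℂ :=
  PowerSeries.mk fun r => a r / ((r ! * (k + r)! : ℕ) : ℂ)

theorem bracket_eq_coeff (k l n : ℕ) (F G : ℍ → ℂ) (z : ℍ) :
    bracket (k + 1) (l + 1) n F G z = (((k + n)! * (l + n)! : ℕ) : ℂ) *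
      PowerSeries.coeff n (PowerSeries.evalNegHom (series k fun r => iterD r F z) *
        series l fun r => iterD r G z) := by
  rw [bracket, PowerSeries.coeff_mul, mul_sum]
  refine sum_congr rfl fun p hp => ?_
  have hpn := mem_antidiagonal.1 hp
  rw [PowerSeries.evalNegHom, PowerSeries.coeff_rescale, series, series, PowerSeries.coeff_mk,
    PowerSeries.coeff_mk, show n + (k + 1) - 1 = k + n by omega,
    show n + (l + 1) - 1 = l + n by omega, Nat.cast_mul,
    Nat.cast_choose ℂ (show p.2 ≤ k + n by omega), Nat.cast_choose ℂ (show p.1 ≤ l + n by omega),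
    show k + n - p.2 = k + p.1 by omega, show l + n - p.1 = l + p.2 by omega]
  push_cast
  field_simp

theorem series_slash (k : ℕ) {g : GL (Fin 2) ℝ} (hg : g.det = 1) {F : ℍ → ℂ} (hF : MDiff F)
    (z : ℍ) :
    series k (fun r => (iterD r F ∣[((k + 1 + 2 * r : ℕ) : ℤ)] g) z) =
      PowerSeries.rescale (factor g z) (PowerSeries.exp ℂ) *
        series k fun r => iterD r (F ∣[((k + 1 : ℕ) : ℤ)] g) z := by
  ext n
  rw [series, PowerSeries.coeff_mk, PowerSeries.coeff_mul, iterD_slash k hg hF]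
  have := Nat.factorial_ne_zero n
  have := Nat.factorial_ne_zero (k + n)
  rw [mul_div_assoc, div_eq_mul_inv _ ((n ! * (k + n)! : ℕ) : ℂ), mul_left_comm,
    mul_inv_cancel₀ (by positivity), mul_one]
  refine sum_congr rfl fun p _ => ?_
  simp [series, PowerSeries.coeff_exp, div_eq_mul_inv]

/-- **The bracket commutes with the slash action.** -/
theorem bracket_slash (k l n : ℕ) {g : GL (Fin 2) ℝ} (hg : g.det = 1) {F G : ℍ → ℂ}
    (hF : MDiff F) (hG : MDiff G) :
    bracket (k + 1) (l + 1) n F G ∣[((k + 1 + (l + 1) + 2 * n : ℕ) : ℤ)] g =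
      bracket (k + 1) (l + 1) n (F ∣[((k + 1 : ℕ) : ℤ)] g) (G ∣[((l + 1 : ℕ) : ℤ)] g) := by
  funext z
  have hj := denom_ne_zero g z
  have hL : (bracket (k + 1) (l + 1) n F G ∣[((k + 1 + (l + 1) + 2 * n : ℕ) : ℤ)] g) z =
      (((k + n)! * (l + n)! : ℕ) : ℂ) * PowerSeries.coeff n (PowerSeries.evalNegHom
        (series k fun r => (iterD r F ∣[((k + 1 + 2 * r : ℕ) : ℤ)] g) z) *
          series l fun r => (iterD r G ∣[((l + 1 + 2 * r : ℕ) : ℤ)] g) z) := by
    rw [slash_one_det hg, bracket_eq_coeff, mul_assoc, PowerSeries.coeff_mul, PowerSeries.coeff_mul,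
      sum_mul]
    congr 1
    refine sum_congr rfl fun p hp => ?_
    simp only [PowerSeries.evalNegHom, PowerSeries.coeff_rescale, series, PowerSeries.coeff_mk,
      slash_one_det hg]
    rw [show -((k + 1 + (l + 1) + 2 * n : ℕ) : ℤ) = -((k + 1 + 2 * p.1 : ℕ) : ℤ) +
      -((l + 1 + 2 * p.2 : ℕ) : ℤ) by rw [← mem_antidiagonal.1 hp]; push_cast; ring, zpow_add₀ hj]
    ring
  rw [hL, bracket_eq_coeff, series_slash k hg hF, series_slash l hg hG,
    map_mul PowerSeries.evalNegHom, mul_mul_mul_comm]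
  have hexp : PowerSeries.evalNegHom (PowerSeries.rescale (factor g z) (PowerSeries.exp ℂ)) *
      PowerSeries.rescale (factor g z) (PowerSeries.exp ℂ) = 1 := by
    have h := congrArg (PowerSeries.rescale (factor g z))
      (PowerSeries.exp_mul_exp_neg_eq_one (A := ℂ))
    rw [map_mul, map_one, PowerSeries.evalNegHom, PowerSeries.rescale_rescale, mul_comm] at h
    rwa [PowerSeries.evalNegHom, PowerSeries.rescale_rescale, mul_comm (factor g z)]
  rw [hexp, one_mul]

end FA.RankinCohen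

end
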